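import Fermat.Agent.ML.Weil.Div

/-!
# ML / WEIL / NONDEG : the Weil pairing is non degenerate on the `p^k`-torsion of the `θ`-part
-/

set_option autoImplicit false
set_option linter.unusedSectionVars false
set_option synthInstance.maxHeartbeats 400000

open AlgebraicCurve ModularCurve

namespace Fermat.Agent.ML.Weil

open Fermat.Agent.RIB Fermat.Agent.RIB.WA
open Fermat.Agent.S27 Fermat.Agent.S19 Fermat.Agent.GAL Fermat.Agent.GAL.PC
  Fermat.Agent.GAL.HeckeInputs

local notation "Qbar" => AlgebraicClosure ℚ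
local notation "GQ" => (AlgebraicClosure ℚ ≃ₐ[ℚ] AlgebraicClosure ℚ)

variable {N p : ℕ} [NeZero N] {S : Set ℕ} {θ : ℕ → ℤ}

/-- the `θ`-part of `J₀(N)[p^k]` is an orthogonal direct summand: the Weil pairing is
non degenerate on it (right variable). -/
theorem weil_nondeg_theta_right (hp : p.Prime) (k : ℕ)
    (hS : ∀ r : ℕ, r.Prime → r ∉ S → ¬ r ∣ N * p)
    {x : JZero N} (hx : x ∈ thetaPart N p S θ) (hpx : p ^ k • x = 0)
    (h : ∀ a ∈ thetaPart N p S θ, p ^ k • a = 0 → weil (p ^ k) a x = 1) : x = 0 := by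
  obtain ⟨y, -, -, hy⟩ := exists_push_eq_theta_of_perp (ι := Unit) (Nn := fun _ => N) (N' := N)
    (θ := θ) (S := S) hp k (fun r hr hrS => ⟨fun _ => hS r hr hrS, hS r hr hrS⟩)
    (fun _ => 0) (fun _ => 0)
    (fun _ a b ha hb => by
      rw [AddMonoidHom.zero_apply, AddMonoidHom.zero_apply, weil_zero_left hb, weil_zero_right ha])
    (fun _ σ a => by
      rw [AddMonoidHom.zero_apply, AddMonoidHom.zero_apply]
      exact (smul_zero (A := JZero N) σ).symm)
    (fun _ => x) (fun _ => hx) (fun _ => hpx)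
    (fun a ha hpa _ => by
      rw [Finset.univ_unique, Finset.prod_singleton]
      exact h _ (ha _) (hpa _))
  exact (hy ()).symm

/-- the same in the left variable. -/
theorem weil_nondeg_theta_left (hp : p.Prime) (k : ℕ)
    (hS : ∀ r : ℕ, r.Prime → r ∉ S → ¬ r ∣ N * p)
    {x : JZero N} (hx : x ∈ thetaPart N p S θ) (hpx : p ^ k • x = 0)
    (h : ∀ a ∈ thetaPart N p S θ, p ^ k • a = 0 → weil (p ^ k) x a = 1) : x = 0 :=
  weil_nondeg_theta_right hp k hS hx hpx fun a ha hpa => by
    rw [weil_swap hpx hpa, h a ha hpa, inv_one]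

end Fermat.Agent.ML.Weil
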