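import Mathlib

/-!
# ML / WEIL / NEXT : `ker Π = (τ - 1) C` and the axiom (DIV) for the next family

Pure group theory (Mathlib only).  One Taylor–Wiles step `A = XX(M)[p^k]`, `C = XX(M l²)[p^k]`
(finite groups), `io i : A → C`, `Pi i : C → A`, `τ` a generator of the image of inertia at `l`.

* `exists_sub_eq_of_push_eq_zero` **[GEN-IM]** : `ι` injective, `C^τ = ι A^κ`, `Π` onto,
  `Π τ = Π`  ⟹  `ker Π = (τ - 1) C`   (counting);
* `next_onto` **[NEXT-DIV]** : (DIV) at `l'` for the family `ker Π_l`;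
* `div_ker_of_onto_tors`, `onto_tors_of_div_ker` : "onto on every `[p^k]`" ⟺ "onto with
  `p`-divisible kernel".
-/

set_option autoImplicit false

namespace Fermat.Agent.ML.Weil

section GenIm

variable {JC JA κ : Type*} [AddCommGroup JC] [AddCommGroup JA] [Fintype κ]

/-- **[GEN-IM]** -/
theorem exists_sub_eq_of_push_eq_zero (C : AddSubgroup JC) (A : AddSubgroup JA) [Finite C]
    (τ : JC →+ JC) (hτC : ∀ c ∈ C, τ c ∈ C)
    (io : κ → JA →+ JC) (Pi : κ → JC →+ JA)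
    (hio : ∀ i, ∀ a ∈ A, io i a ∈ C) (hPi : ∀ i, ∀ c ∈ C, Pi i c ∈ A)
    (hinj : ∀ v : κ → JA, (∀ i, v i ∈ A) → ∑ i, io i (v i) = 0 → ∀ i, v i = 0)
    (hfix : ∀ c ∈ C, τ c = c → ∃ v : κ → JA, (∀ i, v i ∈ A) ∧ ∑ i, io i (v i) = c)
    (hfix' : ∀ i, ∀ a ∈ A, τ (io i a) = io i a)
    (honto : ∀ v : κ → JA, (∀ i, v i ∈ A) → ∃ c ∈ C, ∀ i, Pi i c = v i)
    (hPiτ : ∀ i, ∀ c ∈ C, Pi i (τ c) = Pi i c)
    (x : JC) (hx : x ∈ C) (hx0 : ∀ i, Pi i x = 0) : ∃ c ∈ C, τ c - c = x := by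
  classical
  let t : C →+ C :=
    ((τ - AddMonoidHom.id JC).comp C.subtype).codRestrict C fun c =>
      C.sub_mem (hτC c c.2) c.2
  let P : C →+ (κ → A) :=
    AddMonoidHom.pi fun i => ((Pi i).comp C.subtype).codRestrict A fun c => hPi i c c.2
  let I : (κ → A) →+ C :=
    (∑ i, ((io i).comp A.subtype).comp (_root_.Pi.evalAddMonoidHom (fun _ => A) i)).codRestrict C
      fun v => by
        rw [AddMonoidHom.finsetSum_apply]
        exact C.sum_mem fun i _ => hio i _ (v i).2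
  have hI : ∀ v, ((I v : C) : JC) = ∑ i, io i (v i) := by
    intro v
    show (∑ i, ((io i).comp A.subtype).comp (_root_.Pi.evalAddMonoidHom (fun _ => A) i)) v = _
    rw [AddMonoidHom.finsetSum_apply]
    rfl
  have ht : ∀ c : C, ((t c : C) : JC) = τ c - c := fun c => rfl
  have hIinj : Function.Injective I := by
    rw [injective_iff_map_eq_zero]
    intro v hv
    funext i
    exact Subtype.ext (hinj (fun i => (v i : JA)) (fun i => (v i).2)
      (by rw [← hI, hv]; rfl) i)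
  have hPsurj : Function.Surjective P := by
    intro v
    obtain ⟨c, hc, hcv⟩ := honto (fun i => (v i : JA)) fun i => (v i).2
    exact ⟨⟨c, hc⟩, funext fun i => Subtype.ext (hcv i)⟩
  have hker : t.ker = I.range := by
    ext c
    rw [AddMonoidHom.mem_ker, AddMonoidHom.mem_range]
    constructor
    · intro h
      have h1 : τ c = c := sub_eq_zero.1 ((ht c).symm.trans (congrArg Subtype.val h))
      obtain ⟨v, hv, hvc⟩ := hfix c c.2 h1
      exact ⟨fun i => ⟨v i, hv i⟩, Subtype.ext ((hI _).trans hvc)⟩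
    · rintro ⟨v, rfl⟩
      apply Subtype.ext
      rw [ht, hI, map_sum]
      exact sub_eq_zero.2 (Finset.sum_congr rfl fun i _ => hfix' i _ (v i).2)
  have hle : t.range ≤ P.ker := by
    rintro _ ⟨c, rfl⟩
    rw [AddMonoidHom.mem_ker]
    funext i
    apply Subtype.ext
    show Pi i (τ c - c) = 0
    rw [map_sub, hPiτ i c c.2, sub_self]
  have hfinA : Finite (κ → A) := Finite.of_injective I hIinj
  have c1 : Nat.card t.ker * Nat.card t.range = Nat.card C := by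
    rw [← AddSubgroup.index_ker, AddSubgroup.card_mul_index]
  have c2 : Nat.card P.ker * Nat.card P.range = Nat.card C := by
    rw [← AddSubgroup.index_ker, AddSubgroup.card_mul_index]
  have c3 : Nat.card t.ker = Nat.card (κ → A) := by
    rw [hker]
    exact (Nat.card_congr (Equiv.ofInjective I hIinj)).symm
  have c4 : Nat.card P.range = Nat.card (κ → A) := by
    rw [AddMonoidHom.range_eq_top.2 hPsurj]
    exact Nat.card_congr AddSubgroup.topEquiv.toEquiv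
  have hpos : 0 < Nat.card (κ → A) := Nat.card_pos
  have c5 : Nat.card P.ker = Nat.card t.range := by
    rw [c3] at c1
    rw [c4, mul_comm] at c2
    exact Nat.eq_of_mul_eq_mul_left hpos (c2.trans c1.symm)
  have heq : t.range = P.ker := AddSubgroup.eq_of_le_of_card_ge hle c5.le
  have hxP : (⟨x, hx⟩ : C) ∈ P.ker := by
    rw [AddMonoidHom.mem_ker]
    funext i
    exact Subtype.ext (hx0 i)
  rw [← heq] at hxP
  obtain ⟨c, hc⟩ := hxP
  exact ⟨c, c.2, (ht c).symm.trans (congrArg Subtype.val hc)⟩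

end GenIm

section Next

variable {JC JB JB' κ κ' : Type*} [AddCommGroup JC] [AddCommGroup JB] [AddCommGroup JB']

/-- **[NEXT-DIV]** `B = XX(M l²)[p^k]`, `C = XX(M l² l'²)[p^k]`, `Pi` = push at `l` on `C`,
`PiB` = push at `l` on `B`, `Pi'` = push at `l'`, `C → B`.
(DIV) for `XX` at `l'` (`honto`) and [GEN-IM] for `B` (`hgen`) give (DIV) at `l'` for `ker Π_l`. -/
theorem next_onto (C : AddSubgroup JC) (B : AddSubgroup JB)
    (τC : JC →+ JC) (τB : JB →+ JB) (hτC : ∀ c ∈ C, τC c ∈ C)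
    (Pi : κ → JC →+ JB') (Pi' : κ' → JC →+ JB)
    (hPiτ : ∀ i, ∀ c ∈ C, Pi i (τC c) = Pi i c)
    (hPi'τ : ∀ j, ∀ c ∈ C, Pi' j (τC c) = τB (Pi' j c))
    (honto : ∀ b : κ' → JB, (∀ j, b j ∈ B) → ∃ c ∈ C, ∀ j, Pi' j c = b j)
    (w : κ' → JB) (hgen : ∀ j, ∃ b ∈ B, τB b - b = w j) :
    ∃ y ∈ C, (∀ i, Pi i y = 0) ∧ ∀ j, Pi' j y = w j := by
  choose b hb hbw using hgen
  obtain ⟨c, hc, hcb⟩ := honto b hb
  refine ⟨τC c - c, C.sub_mem (hτC c hc) hc, fun i => ?_, fun j => ?_⟩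
  · rw [map_sub, hPiτ i c hc, sub_self]
  · rw [map_sub, hPi'τ j c hc, hcb, hbw]

end Next

section Div

variable {JC JA κ : Type*} [AddCommGroup JC] [AddCommGroup JA]

/-- `Π` onto on `p`-torsion and `C` `p`-divisible ⟹ `ker Π ∩ C` is `p`-divisible. -/
theorem div_ker_of_onto_tors (p : ℕ) (C : AddSubgroup JC) (A : AddSubgroup JA)
    (Pi : κ → JC →+ JA) (hPi : ∀ i, ∀ c ∈ C, Pi i c ∈ A)
    (hdiv : ∀ c ∈ C, ∃ c' ∈ C, p • c' = c)
    (honto : ∀ v : κ → JA, (∀ i, v i ∈ A) → (∀ i, p • v i = 0) →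
      ∃ c ∈ C, p • c = 0 ∧ ∀ i, Pi i c = v i)
    (x : JC) (hx : x ∈ C) (hx0 : ∀ i, Pi i x = 0) :
    ∃ x' ∈ C, (∀ i, Pi i x' = 0) ∧ p • x' = x := by
  obtain ⟨y, hy, hyx⟩ := hdiv x hx
  obtain ⟨z, hz, hpz, hzy⟩ := honto (fun i => Pi i y) (fun i => hPi i y hy)
    (fun i => by rw [← map_nsmul, hyx, hx0])
  exact ⟨y - z, C.sub_mem hy hz, fun i => by rw [map_sub, hzy, sub_self],
    by rw [nsmul_sub, hyx, hpz, sub_zero]⟩

/-- `Π` onto with `p`-divisible kernel ⟹ `Π` is onto on `p^k`-torsion. -/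
theorem onto_tors_of_div_ker (p : ℕ) (C : AddSubgroup JC) (A : AddSubgroup JA)
    (Pi : κ → JC →+ JA)
    (hdiv : ∀ x ∈ C, (∀ i, Pi i x = 0) → ∃ x' ∈ C, (∀ i, Pi i x' = 0) ∧ p • x' = x)
    (honto : ∀ v : κ → JA, (∀ i, v i ∈ A) → ∃ c ∈ C, ∀ i, Pi i c = v i)
    (k : ℕ) (v : κ → JA) (hv : ∀ i, v i ∈ A) (hpv : ∀ i, p ^ k • v i = 0) :
    ∃ c ∈ C, p ^ k • c = 0 ∧ ∀ i, Pi i c = v i := by
  have hdivk : ∀ k : ℕ, ∀ x ∈ C, (∀ i, Pi i x = 0) →
      ∃ x' ∈ C, (∀ i, Pi i x' = 0) ∧ p ^ k • x' = x := by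
    intro k
    induction k with
    | zero => exact fun x hx h0 => ⟨x, hx, h0, by rw [pow_zero, one_smul]⟩
    | succ k ih =>
      intro x hx h0
      obtain ⟨x₁, hx₁, h₁, hp₁⟩ := ih x hx h0
      obtain ⟨x₂, hx₂, h₂, hp₂⟩ := hdiv x₁ hx₁ h₁
      exact ⟨x₂, hx₂, h₂, by rw [pow_succ, mul_smul, hp₂, hp₁]⟩
  obtain ⟨c, hc, hcv⟩ := honto v hv
  obtain ⟨d, hd, hd0, hpd⟩ := hdivk k (p ^ k • c) (C.nsmul_mem hc _)
    (fun i => by rw [map_nsmul, hcv, hpv])
  exact ⟨c - d, C.sub_mem hc hd, by rw [nsmul_sub, hpd, sub_self],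
    fun i => by rw [map_sub, hd0, sub_zero, hcv]⟩

end Div

end Fermat.Agent.ML.Weil
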