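import Fermat.Agent.ML.Weil.Next
import Fermat.Agent.RIB.Grow.Tau
import Fermat.Agent.SS.Top35.SMO

/-!
# ML / WEIL / INST : [GEN-IM] and [NEXT-DIV] for subgroups of `J₀`

`XV ≤ J₀(L)[p^∞]`, `XW ≤ J₀(N)[p^∞]` (think of `N = L l²`), `io i : J₀(L) → J₀(N)`,
`Pi i : J₀(N) → J₀(L)` arbitrary Galois equivariant maps, `l ∤ L p`.

* `gen_im` : for every `k` there is `τ₀ ∈ I_l` with `ker (Π | XW[p^k]) = (τ₀ - 1) XW[p^k]`;
* `next_div` : (DIV) at `l'` for the family `ker Π_l`.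
-/

set_option autoImplicit false
set_option linter.unusedSectionVars false

open AlgebraicCurve ModularCurve

namespace Fermat.Agent.ML.Weil

open Fermat.Agent.RIB Fermat.Agent.GAL Fermat.Agent.GAL.PC

local notation "Qbar" => AlgebraicClosure ℚ
local notation "GQ" => (AlgebraicClosure ℚ ≃ₐ[ℚ] AlgebraicClosure ℚ)

theorem gq_smul_nsmul {N : ℕ} [NeZero N] (σ : GQ) (c : ℕ) (x : JZero N) :
    σ • (c • x) = c • (σ • x) :=
  map_nsmul (DistribMulAction.toAddMonoidHom (JZero N) σ) c x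

/-- **[GEN-IM]** -/
theorem gen_im {L N l p n : ℕ} [NeZero L] [NeZero N] {κ : Type*} [Fintype κ]
    (hp : p.Prime) (hl : l.Prime) (hpl : p ≠ l) (hlL : ¬ l ∣ L)
    {A : ValuationSubring Qbar} (hA : A.LiesOverPrime l)
    (XV : AddSubgroup (JZero L)) (XW : AddSubgroup (JZero N))
    (hXV : ∀ v ∈ XV, ∃ k : ℕ, p ^ k • v = 0)
    (hst : ∀ τ ∈ A.inertiaSubgroupIn ℚ, ∀ x ∈ XW, τ • x ∈ XW)
    (io : κ → JZero L →+ JZero N) (Pi : κ → JZero N →+ JZero L)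
    (hioG : ∀ i (σ : GQ) v, io i (σ • v) = σ • io i v)
    (hPiG : ∀ i (σ : GQ) x, Pi i (σ • x) = σ • Pi i x)
    (hio : ∀ i, ∀ v ∈ XV, io i v ∈ XW) (hPi : ∀ i, ∀ x ∈ XW, Pi i x ∈ XV)
    (hinj : ∀ v : κ → JZero L, (∀ i, v i ∈ XV) → ∑ i, io i (v i) = 0 → ∀ i, v i = 0)
    (hsurj : ∀ x ∈ XW, (∀ τ ∈ A.inertiaSubgroupIn ℚ, τ • x = x) →
      ∃ v : κ → JZero L, (∀ i, v i ∈ XV) ∧ ∑ i, io i (v i) = x)
    (hrho : ∀ τ ∈ A.inertiaSubgroupIn ℚ, ∀ x ∈ XW, τ ^ (p ^ n) • x = x)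
    (k : ℕ)
    (honto : ∀ v : κ → JZero L, (∀ i, v i ∈ XV) → (∀ i, p ^ k • v i = 0) →
      ∃ x ∈ XW, p ^ k • x = 0 ∧ ∀ i, Pi i x = v i) :
    ∃ τ₀ ∈ A.inertiaSubgroupIn ℚ, ∀ x ∈ XW, p ^ k • x = 0 → (∀ i, Pi i x = 0) →
      ∃ c ∈ XW, p ^ k • c = 0 ∧ τ₀ • c - c = x := by
  have hlLp : ¬ l ∣ L * p := fun h => (hl.dvd_mul.1 h).elim hlL fun h' =>
    hpl ((Nat.prime_dvd_prime_iff_eq hl hp).1 h').symm
  have hunr : ∀ τ ∈ A.inertiaSubgroupIn ℚ, ∀ v ∈ XV, τ • v = v := fun τ hτ v hv =>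
    (SS.es_all L p).1 l hl hlLp A hA τ hτ v (hXV v hv)
  let C : AddSubgroup (JZero N) := XW ⊓ (nsmulAddMonoidHom (p ^ k)).ker
  let A' : AddSubgroup (JZero L) := XV ⊓ (nsmulAddMonoidHom (p ^ k)).ker
  have hCst : ∀ τ ∈ A.inertiaSubgroupIn ℚ, ∀ x ∈ C, τ • x ∈ C := fun τ hτ x hx =>
    ⟨hst τ hτ x hx.1, by
      have h2 : p ^ k • x = 0 := hx.2
      show p ^ k • (τ • x) = 0
      rw [← gq_smul_nsmul, h2]
      exact smul_zero (A := JZero N) τ⟩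
  obtain ⟨τ₀, hτ₀, hgen⟩ := exists_tau0 hl hA C hCst (p ^ k) (pow_ne_zero _ hp.ne_zero)
    (fun x hx => hx.2) (p ^ n) (Nat.Coprime.pow_left _ ((Nat.coprime_primes hp hl).2 hpl))
    (fun τ hτ x hx => hrho τ hτ x hx.1)
  haveI : Finite C := by
    have h := finite_torsion_JZero N (p ^ k) (pow_ne_zero _ hp.ne_zero)
    exact Set.finite_coe_iff.2 (h.subset fun x hx => hx.2)
  refine ⟨τ₀, hτ₀, fun x hx hpx hx0 => ?_⟩
  obtain ⟨c, hc, hcx⟩ := exists_sub_eq_of_push_eq_zero C A'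
    (DistribMulAction.toAddMonoidHom (JZero N) τ₀) (fun c hc => hCst τ₀ hτ₀ c hc) io Pi
    (fun i a ha => ⟨hio i a ha.1, by
      show p ^ k • io i a = 0
      rw [← map_nsmul, show p ^ k • a = 0 from ha.2, map_zero]⟩)
    (fun i c hc => ⟨hPi i c hc.1, by
      show p ^ k • Pi i c = 0
      rw [← map_nsmul, show p ^ k • c = 0 from hc.2, map_zero]⟩)
    (fun v hv h0 => hinj v (fun i => (hv i).1) h0)
    (fun c hc h1 => by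
      obtain ⟨v, hv, hvc⟩ := hsurj c hc.1 (hgen c hc h1)
      refine ⟨v, fun i => ⟨hv i, ?_⟩, hvc⟩
      refine hinj (fun i => p ^ k • v i) (fun i => XV.nsmul_mem (hv i) _) ?_ i
      have : ∑ i, io i (p ^ k • v i) = p ^ k • ∑ i, io i (v i) := by
        rw [Finset.smul_sum]
        exact Finset.sum_congr rfl fun i _ => map_nsmul _ _ _
      rw [this, hvc]
      exact hc.2)
    (fun i a ha => by
      show τ₀ • io i a = io i a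
      rw [← hioG, hunr τ₀ hτ₀ a ha.1])
    (fun v hv => by
      obtain ⟨x, hx, hpx, hxv⟩ := honto v (fun i => (hv i).1) (fun i => (hv i).2)
      exact ⟨x, ⟨hx, hpx⟩, hxv⟩)
    (fun i c hc => by
      show Pi i (τ₀ • c) = Pi i c
      rw [hPiG, hunr τ₀ hτ₀ _ (hPi i c hc.1)])
    x ⟨hx, hpx⟩ hx0
  exact ⟨c, hc.1, hc.2, hcx⟩

/-- **[NEXT-DIV]** `XB ≤ J₀(NB)` (`NB = M l²`), `XC ≤ J₀(NC)` (`NC = M l² l'²`),
`PiB` = push at `l` from the level `NB`, `Pi` = push at `l` from the level `NC` (to the level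
`NB' = M l'²`, `l ∤ NB' p`), `Pi'` = push at `l'`, `J₀(NC) → J₀(NB)`.
From [GEN-IM] for `XB` and (DIV) at `l'` for `XC → XB`. -/
theorem next_div {NB NC NB' l p : ℕ} [NeZero NB] [NeZero NC] [NeZero NB'] {κ κ' κ'' : Type*}
    {JA : Type*} [AddCommGroup JA]
    (hl : l.Prime) (hlB' : ¬ l ∣ NB' * p)
    {A : ValuationSubring Qbar} (hA : A.LiesOverPrime l)
    (XB : AddSubgroup (JZero NB)) (XC : AddSubgroup (JZero NC))
    (hst : ∀ τ ∈ A.inertiaSubgroupIn ℚ, ∀ x ∈ XC, τ • x ∈ XC)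
    (PiB : κ'' → JZero NB →+ JA)
    (Pi : κ → JZero NC →+ JZero NB') (Pi' : κ' → JZero NC →+ JZero NB)
    (hPiG : ∀ i (σ : GQ) x, Pi i (σ • x) = σ • Pi i x)
    (hPi'G : ∀ j (σ : GQ) x, Pi' j (σ • x) = σ • Pi' j x)
    (k : ℕ)
    (hgen : ∃ τ₀ ∈ A.inertiaSubgroupIn ℚ, ∀ x ∈ XB, p ^ k • x = 0 → (∀ i, PiB i x = 0) →
      ∃ c ∈ XB, p ^ k • c = 0 ∧ τ₀ • c - c = x)
    (honto : ∀ b : κ' → JZero NB, (∀ j, b j ∈ XB) → (∀ j, p ^ k • b j = 0) →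
      ∃ c ∈ XC, p ^ k • c = 0 ∧ ∀ j, Pi' j c = b j)
    (w : κ' → JZero NB) (hw : ∀ j, w j ∈ XB) (hpw : ∀ j, p ^ k • w j = 0)
    (hw0 : ∀ j i, PiB i (w j) = 0) :
    ∃ y ∈ XC, p ^ k • y = 0 ∧ (∀ i, Pi i y = 0) ∧ ∀ j, Pi' j y = w j := by
  obtain ⟨τ₀, hτ₀, hgen⟩ := hgen
  choose b hb hpb hbw using fun j => hgen (w j) (hw j) (hpw j) (hw0 j)
  obtain ⟨c, hc, hpc, hcb⟩ := honto b hb hpb
  have hτc : p ^ k • (τ₀ • c) = 0 := by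
    rw [← gq_smul_nsmul, hpc]
    exact smul_zero (A := JZero NC) τ₀
  refine ⟨τ₀ • c - c, XC.sub_mem (hst τ₀ hτ₀ c hc) hc, by rw [nsmul_sub, hτc, hpc, sub_zero],
    fun i => ?_, fun j => ?_⟩
  · rw [map_sub, hPiG, (SS.es_all NB' p).1 l hl hlB' A hA τ₀ hτ₀ (Pi i c)
      ⟨k, by rw [← map_nsmul, hpc, map_zero]⟩, sub_self]
  · rw [map_sub, hPi'G, hcb, hbw]

end Fermat.Agent.ML.Weil
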