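import Fermat.Agent.ML.Weil.Perp
import Fermat.Agent.RIB.WeilJ
import Fermat.Agent.RIB.Grow.Div

/-!
# ML / WEIL / DIV : the common kernel of a family of push-forwards is `p`-divisible

`pull i : J₀(N_i) → J₀(N')`, `push i : J₀(N') → J₀(N_i)` Weil-adjoint, Galois equivariant.

* `exists_push_eq_theta_of_perp` : on the `p^k`-torsion of the `θ`-parts, the image of
  `y ↦ (push i y)_i` is the orthogonal of the kernel of `(a_i) ↦ ∑ pull i (a_i)`;
* `ker_push_divisible` : if the kernel `Z` of `∑ pull i` on the `θ`-parts is `p`-divisible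
  (e.g. `Z = 0`), then the common kernel of the `push i` in the `θ`-part of `J₀(N')` is
  `p`-divisible.
-/

set_option autoImplicit false
set_option linter.unusedSectionVars false
set_option synthInstance.maxHeartbeats 400000

open AlgebraicCurve ModularCurve

namespace Fermat.Agent.ML.Weil

open Fermat.Agent.RIB Fermat.Agent.RIB.WA
open Fermat.Agent.S27 Fermat.Agent.S19 Fermat.Agent.GAL Fermat.Agent.GAL.PC
  Fermat.Agent.GAL.HeckeInputs

local notation "Qbar" => AlgebraicClosure ℚ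
local notation "GQ" => (AlgebraicClosure ℚ ≃ₐ[ℚ] AlgebraicClosure ℚ)

section General

variable {K F : Type*} [Field K] [Field F] [Algebra K F] [IsAlgClosed K] [CharZero K] [IsFF K F]

theorem weil_sum_left {ι : Type*} {m : ℕ} (s : Finset ι) (x : ι → Pic0 K F) {y : Pic0 K F}
    (hx : ∀ i, m • x i = 0) (hy : m • y = 0) :
    weil m (∑ i ∈ s, x i) y = ∏ i ∈ s, weil m (x i) y := by
  classical
  have : weil m (∑ i ∈ s, x i) y = ∏ i ∈ s, weil m (x i) y ∧ m • (∑ i ∈ s, x i) = 0 := by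
    induction s using Finset.induction_on with
    | empty =>
      refine ⟨?_, by simp⟩
      simp only [Finset.sum_empty, Finset.prod_empty]
      exact weil_zero_left hy
    | insert i s hi ih =>
      rw [Finset.sum_insert hi, Finset.prod_insert hi]
      exact ⟨by rw [weil_add_left (hx i) ih.2 hy, ih.1], by rw [nsmul_add, hx i, ih.2, add_zero]⟩
  exact this.1

end General

variable {ι : Type*} [Fintype ι] {Nn : ι → ℕ} [∀ i, NeZero (Nn i)] {N' p : ℕ} [NeZero N']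
  {S : Set ℕ} {θ : ℕ → ℤ}

/-- **[PERP ⟹ IMAGE] on `θ`-parts**, sources of arbitrary levels. -/
theorem exists_push_eq_theta_of_perp (hp : p.Prime) (k : ℕ)
    (hS : ∀ r : ℕ, r.Prime → r ∉ S → (∀ i, ¬ r ∣ Nn i * p) ∧ ¬ r ∣ N' * p)
    (pull : ∀ i, JZero (Nn i) →+ JZero N') (push : ∀ i, JZero N' →+ JZero (Nn i))
    (hadj : ∀ i x y, p ^ k • x = 0 → p ^ k • y = 0 →
      weil (p ^ k) (pull i x) y = weil (p ^ k) x (push i y))
    (hgal : ∀ i (σ : GQ) x, pull i (σ • x) = σ • pull i x)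
    (v : ∀ i, JZero (Nn i)) (hv : ∀ i, v i ∈ thetaPart (Nn i) p S θ) (hpv : ∀ i, p ^ k • v i = 0)
    (hperp : ∀ a : ∀ i, JZero (Nn i), (∀ i, a i ∈ thetaPart (Nn i) p S θ) →
      (∀ i, p ^ k • a i = 0) → ∑ i, pull i (a i) = 0 → ∏ i, weil (p ^ k) (a i) (v i) = 1) :
    ∃ y ∈ thetaPart N' p S θ, p ^ k • y = 0 ∧ ∀ i, push i y = v i := by
  obtain ⟨y, hy, hyθ, hpush⟩ := exists_push_eq_of_perp (κ := {r : Nat.Primes // (r : ℕ) ∉ S})
    (X := fun i => JZero (Nn i)) (Y := JZero N')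
    (fun i => finite_tor_JZero (Nn i) hp.pos k) (finite_tor_JZero N' hp.pos k)
    (fun i => torsPair_weil (Nn i) hp k) (torsPair_weil N' hp k) pull push hadj
    (fun i r => (hk (Nn i) θ r.1).toAddMonoidHom) (fun r => (hk N' θ r.1).toAddMonoidHom)
    (fun i r r' x _ => WA.hk_comm (Nn i) θ r.1 r'.1 x)
    (fun r r' y _ => WA.hk_comm N' θ r.1 r'.1 y)
    (fun i r x x' hx hx' => weil_hk (Nn i) k θ r.1 ((hS _ r.1.2 r.2).1 i) hx hx')
    (fun r y y' hy hy' => weil_hk N' k θ r.1 (hS _ r.1.2 r.2).2 hy hy')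
    (fun i r x hx => by
      show pull i (hk (Nn i) θ r.1 x) = hk N' θ r.1 (pull i x)
      rw [hk_apply, hk_apply, map_sub, map_zsmul,
        SS.map_hecke_of_equivariant (SS.es_all (Nn i) p).2 (SS.es_all N' p).2 (pull i) (hgal i) r.1
          ((hS _ r.1.2 r.2).1 i) (hS _ r.1.2 r.2).2 x ⟨k, hx⟩])
    v hpv (fun i r => by
      obtain ⟨n, hn⟩ := (hv i).2 r.1 r.2
      exact ⟨n, by rw [iterate_hk]; exact hn⟩)
    (fun w hw hwθ h0 => hperp w (fun i => ⟨⟨k, hw i⟩, fun r hr => by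
      obtain ⟨n, hn⟩ := hwθ i ⟨r, hr⟩
      exact ⟨n, by rw [← iterate_hk]; exact hn⟩⟩) hw h0)
  refine ⟨y, ⟨⟨k, hy⟩, fun r hr => ?_⟩, hy, hpush⟩
  obtain ⟨n, hn⟩ := hyθ ⟨r, hr⟩
  exact ⟨n, by rw [← iterate_hk]; exact hn⟩

/-- `Z := ker (∑ pull i)` on the `θ`-parts is `p`-divisible. -/
def KerPullDiv (p : ℕ) (S : Set ℕ) (θ : ℕ → ℤ) (pull : ∀ i, JZero (Nn i) →+ JZero N') : Prop :=
  ∀ v : ∀ i, JZero (Nn i), (∀ i, v i ∈ thetaPart (Nn i) p S θ) → ∑ i, pull i (v i) = 0 →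
    ∃ v' : ∀ i, JZero (Nn i), (∀ i, v' i ∈ thetaPart (Nn i) p S θ) ∧ ∑ i, pull i (v' i) = 0 ∧
      ∀ i, p • v' i = v i

theorem KerPullDiv.of_inj {pull : ∀ i, JZero (Nn i) →+ JZero N'}
    (h : ∀ v : ∀ i, JZero (Nn i), (∀ i, v i ∈ thetaPart (Nn i) p S θ) → ∑ i, pull i (v i) = 0 →
      ∀ i, v i = 0) : KerPullDiv p S θ pull := fun v hv h0 =>
  ⟨v, hv, h0, fun i => by rw [h v hv h0 i, smul_zero]⟩

theorem KerPullDiv.pow {pull : ∀ i, JZero (Nn i) →+ JZero N'} (h : KerPullDiv p S θ pull)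
    (k : ℕ) (v : ∀ i, JZero (Nn i)) (hv : ∀ i, v i ∈ thetaPart (Nn i) p S θ)
    (h0 : ∑ i, pull i (v i) = 0) :
    ∃ v' : ∀ i, JZero (Nn i), (∀ i, v' i ∈ thetaPart (Nn i) p S θ) ∧ ∑ i, pull i (v' i) = 0 ∧
      ∀ i, p ^ k • v' i = v i := by
  induction k with
  | zero => exact ⟨v, hv, h0, fun i => by rw [pow_zero, one_smul]⟩
  | succ k ih =>
    obtain ⟨v₁, hv₁, h₁, hp₁⟩ := ih
    obtain ⟨v₂, hv₂, h₂, hp₂⟩ := h v₁ hv₁ h₁
    exact ⟨v₂, hv₂, h₂, fun i => by rw [pow_succ, mul_smul, hp₂, hp₁]⟩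

/-- **[DIV]** the common kernel of the `push i` in the `θ`-part of `J₀(N')` is `p`-divisible as
soon as the kernel of `∑ pull i` on the `θ`-parts is. -/
theorem ker_push_divisible (hp : p.Prime)
    (hS : ∀ r : ℕ, r.Prime → r ∉ S → (∀ i, ¬ r ∣ Nn i * p) ∧ ¬ r ∣ N' * p)
    (pull : ∀ i, JZero (Nn i) →+ JZero N') (push : ∀ i, JZero N' →+ JZero (Nn i))
    (hadj : ∀ (k : ℕ) i x y, p ^ k • x = 0 → p ^ k • y = 0 →
      weil (p ^ k) (pull i x) y = weil (p ^ k) x (push i y))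
    (hgal : ∀ i (σ : GQ) x, pull i (σ • x) = σ • pull i x)
    (hgal' : ∀ i (σ : GQ) y, push i (σ • y) = σ • push i y)
    (hZ : KerPullDiv p S θ pull)
    (y : JZero N') (hy : y ∈ thetaPart N' p S θ) (hy0 : ∀ i, push i y = 0) :
    ∃ y' ∈ thetaPart N' p S θ, (∀ i, push i y' = 0) ∧ p • y' = y := by
  obtain ⟨k, hk'⟩ := hy.1
  obtain ⟨y₁, hy₁, hpy₁⟩ := thetaPart_divisible N' hp.pos S θ y hy
  have hy₁k : (p ^ k * p ^ 1) • y₁ = 0 := by rw [pow_one, mul_smul, hpy₁, hk']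
  have hw : ∀ i, push i y₁ ∈ thetaPart (Nn i) p S θ := fun i =>
    map_mem_thetaPart_of_equivariant (push i) (hgal' i)
      (fun r hr hrS => ⟨(hS r hr hrS).2, (hS r hr hrS).1 i⟩) hy₁
  have hpw : ∀ i, p ^ 1 • push i y₁ = 0 := fun i => by
    rw [pow_one, ← map_nsmul, hpy₁, hy0]
  obtain ⟨y₂, hy₂, hpy₂, hpush⟩ := exists_push_eq_theta_of_perp (θ := θ) hp 1 hS pull push
    (hadj 1) hgal (fun i => push i y₁) hw hpw (fun a ha hpa h0 => by
      obtain ⟨a', ha', h0', hpa'⟩ := hZ.pow k a ha h0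
      have h1 : ∀ i, (p ^ k * p ^ 1) • a' i = 0 := fun i => by
        rw [mul_comm, mul_smul, hpa', hpa]
      have h2 : ∀ i, weil (p ^ 1) (a i) (push i y₁) =
          weil (p ^ k * p ^ 1) (pull i (a' i)) y₁ := fun i => by
        rw [← hpa' i, ← weil_mul_left (h1 i) (hpw i)]
        have h3 := hadj (k + 1) i (a' i) y₁ (by rw [pow_succ, ← pow_one p, ← pow_mul, one_mul]
                                                exact h1 i)
          (by rw [pow_succ, ← pow_one p, ← pow_mul, one_mul]; exact hy₁k)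
        rw [pow_one, ← pow_succ]
        exact h3.symm
      rw [Finset.prod_congr rfl fun i _ => h2 i, ← weil_sum_left _ _ (fun i => by
        rw [← map_nsmul, h1 i, map_zero]) hy₁k, h0', weil_zero_left hy₁k])
  refine ⟨y₁ - y₂, (thetaPart N' p S θ).sub_mem hy₁ hy₂, fun i => ?_, ?_⟩
  · rw [map_sub, hpush, sub_self]
  · rw [pow_one] at hpy₂
    rw [nsmul_sub, hpy₁, hpy₂, sub_zero]

end Fermat.Agent.ML.Weil
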