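import Fermat.Agent.RIB.WeilDual

/-!
# ML / WEIL / PERP : the image of the adjoint is the orthogonal of the kernel (on `θ`-parts)

Pure algebra (Mathlib + `RIB.WeilDual`).  Generalisation of `RIB.WA.surj_of_inj` /
`RIB.WA.exists_push_eq` : no injectivity hypothesis, and the sources of the family of maps may be
different groups.
-/

set_option autoImplicit false

namespace Fermat.Agent.ML.Weil

open Fermat.Agent.RIB.WA

section Main

variable {A B K κ : Type*} [AddCommGroup A] [AddCommGroup B] [Field K]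
variable [Finite A] [Finite B] [IsAlgClosed K] [CharZero K]

/-- **duality**: an element `x` of the nilpotent part of `A` which is orthogonal to the kernel of
`f` on the nilpotent part is the image under the adjoint `g` of an element of the nilpotent part
of `B`. -/
theorem exists_of_perp {eA : A → A → K} {eB : B → B → K} (hA : PerfPair eA) (hB : PerfPair eB)
    (f : A →+ B) (g : B →+ A) (hfg : ∀ a b, eB (f a) b = eA a (g b))
    (sA : κ → AddMonoid.End A) (sB : κ → AddMonoid.End B)
    (hcA : ∀ i j, Commute (sA i) (sA j)) (hcB : ∀ i j, Commute (sB i) (sB j))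
    (hadjA : ∀ j a a', eA (sA j a) a' = eA a (sA j a'))
    (hadjB : ∀ j b b', eB (sB j b) b' = eB b (sB j b'))
    (hf : ∀ j a, f (sA j a) = sB j (f a))
    (x : A) (hx : ∀ j, ∃ n : ℕ, (sA j ^ n) x = 0)
    (hperp : ∀ a, (∀ j, ∃ n : ℕ, (sA j ^ n) a = 0) → f a = 0 → eA a x = 1) :
    ∃ b, (∀ j, ∃ n : ℕ, (sB j ^ n) b = 0) ∧ g b = x := by
  classical
  haveI : Finite (AddMonoid.End A) := DFunLike.finite (A →+ A)
  haveI : Finite (AddMonoid.End B) := DFunLike.finite (B →+ B)
  have hk : ∀ j, ∃ k : ℕ, 0 < k ∧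
      IsIdempotentElem (((sA j, sB j) : AddMonoid.End A × AddMonoid.End B) ^ k) :=
    fun j => exists_pow_idem _
  choose k hk0 hkid using hk
  set EA : κ → AddMonoid.End A := fun j => sA j ^ k j with hEA
  set EB : κ → AddMonoid.End B := fun j => sB j ^ k j with hEB
  have hidA : ∀ j, IsIdempotentElem (EA j) := fun j => congrArg Prod.fst (hkid j)
  have hidB : ∀ j, IsIdempotentElem (EB j) := fun j => congrArg Prod.snd (hkid j)
  have hθA : ∀ a, (∀ j, ∃ n : ℕ, (sA j ^ n) a = 0) ↔ ∀ j, EA j a = 0 := fun a =>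
    forall_congr' fun j => exists_pow_apply_eq_zero_iff (hk0 j) (hidA j) a
  have hθB : ∀ b, (∀ j, ∃ n : ℕ, (sB j ^ n) b = 0) ↔ ∀ j, EB j b = 0 := fun b =>
    forall_congr' fun j => exists_pow_apply_eq_zero_iff (hk0 j) (hidB j) b
  have hcEA : ∀ i j, Commute (EA i) (EA j) := fun i j => (hcA i j).pow_pow _ _
  have hcEB : ∀ i j, Commute (EB i) (EB j) := fun i j => (hcB i j).pow_pow _ _
  -- a finite list of indices which exhausts the idempotents
  obtain ⟨l, hl⟩ : ∃ l : List κ, ∀ j, ∃ j' ∈ l, EA j' = EA j ∧ EB j' = EB j := by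
    let F : κ → AddMonoid.End A × AddMonoid.End B := fun j => (EA j, EB j)
    haveI : Fintype (Set.range F) := Fintype.ofFinite _
    refine ⟨(Finset.univ : Finset (Set.range F)).toList.map fun t => t.2.choose, fun j => ?_⟩
    let t : Set.range F := ⟨F j, j, rfl⟩
    refine ⟨t.2.choose, List.mem_map.2 ⟨t, by simp, rfl⟩, ?_, ?_⟩
    · exact congrArg Prod.fst t.2.choose_spec
    · exact congrArg Prod.snd t.2.choose_spec
  have hkillA : ∀ a j, EA j (projL EA l a) = 0 := by
    intro a j
    obtain ⟨j', hj', h1, -⟩ := hl j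
    rw [← h1]
    exact projL_kill hcEA hidA l hj' a
  have hkillB : ∀ b j, EB j (projL EB l b) = 0 := by
    intro b j
    obtain ⟨j', hj', -, h1⟩ := hl j
    rw [← h1]
    exact projL_kill hcEB hidB l hj' b
  have hmem : x ∈ (g.comp (projL EB l : B →+ B)).range := by
    refine hA.mem_of_perp _ x fun a ha => ?_
    have h1 : f (projL EA l a) = 0 := by
      refine hB.nondeg _ fun b => ?_
      rw [projL_map f (fun j a => pow_map f (hf j) (k j) a) l a,
        projL_adj hB hcEB (fun j => pow_adj (hadjB j) (k j)) l, hfg]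
      exact ha _ ⟨b, rfl⟩
    have h2 : eA (projL EA l a) x = 1 := hperp _ ((hθA _).2 (hkillA a)) h1
    rw [← projL_fix EA l (a := x) fun j _ => (hθA x).1 hx j,
      ← projL_adj hA hcEA (fun j => pow_adj (hadjA j) (k j)) l, h2]
  obtain ⟨b, rfl⟩ := hmem
  exact ⟨projL EB l b, (hθB _).2 (hkillB b), rfl⟩

end Main

section Ambient

variable {Y K ι κ : Type*} [AddCommGroup Y] [Field K] [Fintype ι]
variable {X : ι → Type*} [∀ i, AddCommGroup (X i)]

/-- the product pairing on a dependent family. -/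
theorem perfPair_dpi {m : ℕ} {e : ∀ i, X i → X i → K} (h : ∀ i, TorsPair m (e i)) :
    PerfPair (fun a a' : ∀ i, tor (X i) m => ∏ i, e i (a i) (a' i)) where
  ne_zero a a' := Finset.prod_ne_zero_iff.2 fun i _ => (h i).ne_zero _ _ (a i).2 (a' i).2
  add_left a a' b := by
    rw [← Finset.prod_mul_distrib]
    exact Finset.prod_congr rfl fun i _ => (h i).add_left _ _ _ (a i).2 (a' i).2 (b i).2
  add_right a b b' := by
    rw [← Finset.prod_mul_distrib]
    exact Finset.prod_congr rfl fun i _ => (h i).add_right _ _ _ (a i).2 (b i).2 (b' i).2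
  nondeg a ha := by
    classical
    have h0 : ∀ i (x : X i), m • x = 0 → e i x 0 = 1 := by
      intro i x hx
      have h1 := (h i).add_right x 0 0 hx (smul_zero m) (smul_zero m)
      rw [add_zero] at h1
      exact (mul_eq_left₀ ((h i).ne_zero x 0 hx (smul_zero m))).1 h1.symm
    funext i
    refine Subtype.ext ((h i).nondeg _ (a i).2 fun y hy => ?_)
    have h1 := ha (Pi.single i ⟨y, hy⟩)
    rw [Finset.prod_eq_single i] at h1
    · simpa using h1
    · intro j _ hj
      rw [Pi.single_eq_of_ne hj]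
      exact h0 _ _ (a j).2
    · intro hi
      exact absurd (Finset.mem_univ i) hi

/-- componentwise action on a dependent family. -/
def dpiEnd {Z : ι → Type*} [∀ i, AddCommGroup (Z i)] (s : ∀ i, AddMonoid.End (Z i)) :
    AddMonoid.End (∀ i, Z i) :=
  AddMonoidHom.pi fun i => (s i).comp (Pi.evalAddMonoidHom Z i)

theorem dpiEnd_apply {Z : ι → Type*} [∀ i, AddCommGroup (Z i)] (s : ∀ i, AddMonoid.End (Z i))
    (a : ∀ i, Z i) (i : ι) : dpiEnd s a i = s i (a i) := rfl

theorem pow_dpiEnd_apply {Z : ι → Type*} [∀ i, AddCommGroup (Z i)]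
    (s : ∀ i, AddMonoid.End (Z i)) (n : ℕ) (a : ∀ i, Z i) (i : ι) :
    ((dpiEnd s ^ n) a) i = (s i ^ n) (a i) := by
  induction n generalizing a with
  | zero => rfl
  | succ n ih =>
    have h1 : (dpiEnd s ^ (n + 1)) a = (dpiEnd s ^ n) (dpiEnd s a) := by rw [pow_succ]; rfl
    have h2 : (s i ^ (n + 1)) (a i) = (s i ^ n) (s i (a i)) := by rw [pow_succ]; rfl
    rw [h1, ih, h2]
    rfl

variable [IsAlgClosed K] [CharZero K]

/-- **[PERP ⟹ IMAGE]** families `pull i : X i → Y`, `push i : Y → X i` adjoint for perfect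
pairings on the (finite) `m`-torsion, `s_j` commuting self-adjoint operators intertwined by the
`pull i`.  If `v` (in the nilpotent part of `∏ X i [m]`) is orthogonal to the kernel of
`(a_i) ↦ ∑ pull i (a_i)` on the nilpotent part, then `v = (push i y)_i` with `y` in the nilpotent
part of `Y[m]`. -/
theorem exists_push_eq_of_perp {m : ℕ} (hXfin : ∀ i, Finite (tor (X i) m))
    (hYfin : Finite (tor Y m))
    {eX : ∀ i, X i → X i → K} {eY : Y → Y → K} (hX : ∀ i, TorsPair m (eX i)) (hY : TorsPair m eY)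
    (pull : ∀ i, X i →+ Y) (push : ∀ i, Y →+ X i)
    (hadj : ∀ i x y, m • x = 0 → m • y = 0 → eY (pull i x) y = eX i x (push i y))
    (sX : ∀ i, κ → X i →+ X i) (sY : κ → Y →+ Y)
    (hcX : ∀ i j j' x, m • x = 0 → sX i j (sX i j' x) = sX i j' (sX i j x))
    (hcY : ∀ j j' y, m • y = 0 → sY j (sY j' y) = sY j' (sY j y))
    (hsX : ∀ i j x x', m • x = 0 → m • x' = 0 → eX i (sX i j x) x' = eX i x (sX i j x'))
    (hsY : ∀ j y y', m • y = 0 → m • y' = 0 → eY (sY j y) y' = eY y (sY j y'))
    (hpull : ∀ i j x, m • x = 0 → pull i (sX i j x) = sY j (pull i x))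
    (v : ∀ i, X i) (hv : ∀ i, m • v i = 0) (hvθ : ∀ i j, ∃ n : ℕ, (sX i j)^[n] (v i) = 0)
    (hperp : ∀ a : ∀ i, X i, (∀ i, m • a i = 0) → (∀ i j, ∃ n : ℕ, (sX i j)^[n] (a i) = 0) →
      ∑ i, pull i (a i) = 0 → ∏ i, eX i (a i) (v i) = 1) :
    ∃ y : Y, m • y = 0 ∧ (∀ j, ∃ n : ℕ, (sY j)^[n] y = 0) ∧ ∀ i, push i y = v i := by
  classical
  let f : (∀ i, tor (X i) m) →+ tor Y m :=
    ∑ i, (torMap m (pull i)).comp (Pi.evalAddMonoidHom (fun i => tor (X i) m) i)
  let g : tor Y m →+ (∀ i, tor (X i) m) := AddMonoidHom.pi fun i => torMap m (push i)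
  have hf : ∀ a, ((f a : tor Y m) : Y) = ∑ i, pull i (a i) := by
    intro a
    simp only [f, AddMonoidHom.finsetSum_apply]
    rw [← AddSubgroup.subtype_apply, map_sum]
    rfl
  let sA : κ → AddMonoid.End (∀ i, tor (X i) m) := fun j => dpiEnd fun i => torEnd m (sX i j)
  let sB : κ → AddMonoid.End (tor Y m) := fun j => torEnd m (sY j)
  have hpowA : ∀ j n (a : ∀ i, tor (X i) m) i,
      ((((sA j) ^ n) a i : tor (X i) m) : X i) = (sX i j)^[n] (a i) := by
    intro j n a i
    rw [pow_dpiEnd_apply]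
    exact coe_pow_torEnd (sX i j) n (a i)
  have hprod : ∀ (a : ∀ i, tor (X i) m) (b : tor Y m),
      eY (∑ i, pull i (a i)) b = ∏ i, eY (pull i (a i)) b := by
    intro a b
    have : ∀ s : Finset ι, eY (∑ i ∈ s, pull i (a i)) b = ∏ i ∈ s, eY (pull i (a i)) b ∧
        m • (∑ i ∈ s, pull i (a i)) = 0 := by
      intro s
      induction s using Finset.induction_on with
      | empty =>
        refine ⟨?_, by simp⟩
        simp only [Finset.sum_empty, Finset.prod_empty]
        exact hY.perfPair.zero_left b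
      | insert i s hi ih =>
        have hi' : m • pull i (a i) = 0 := by rw [← map_nsmul, mem_tor.1 (a i).2, map_zero]
        rw [Finset.sum_insert hi, Finset.prod_insert hi]
        exact ⟨by rw [hY.add_left _ _ _ hi' ih.2 b.2, ih.1], by rw [smul_add, hi', ih.2, add_zero]⟩
    exact (this Finset.univ).1
  obtain ⟨b, hb, hgb⟩ := exists_of_perp (κ := κ) (perfPair_dpi hX) hY.perfPair f g
    (fun a b => by
      show eY (f a : tor Y m) b = ∏ i, eX i (a i) (push i b)
      rw [hf, hprod]
      exact Finset.prod_congr rfl fun i _ => hadj i _ _ (a i).2 b.2)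
    sA sB
    (fun j j' => by
      refine AddMonoidHom.ext fun a => funext fun i => Subtype.ext ?_
      exact hcX i j j' _ (a i).2)
    (fun j j' => by
      refine AddMonoidHom.ext fun b => Subtype.ext ?_
      exact hcY j j' _ b.2)
    (fun j a a' => Finset.prod_congr rfl fun i _ => hsX i j _ _ (a i).2 (a' i).2)
    (fun j b b' => hsY j _ _ b.2 b'.2)
    (fun j a => by
      apply Subtype.ext
      rw [hf]
      show ∑ i, pull i (sX i j (a i)) = sY j (f a : tor Y m)
      rw [hf, map_sum]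
      exact Finset.sum_congr rfl fun i _ => hpull i j _ (a i).2)
    (fun i => ⟨v i, hv i⟩)
    (fun j => by
      choose n hn using fun i => hvθ i j
      refine ⟨∑ i, n i, funext fun i => Subtype.ext ?_⟩
      rw [hpowA]
      exact iterate_eq_zero_of_le (sX i j) (hn i)
        (Finset.single_le_sum (fun _ _ => Nat.zero_le _) (Finset.mem_univ i)))
    (fun a ha hfa => by
      refine hperp (fun i => (a i : X i)) (fun i => (a i).2) (fun i j => ?_) ?_
      · obtain ⟨n, hn⟩ := ha j
        refine ⟨n, ?_⟩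
        rw [← hpowA, hn]
        rfl
      · rw [← hf, hfa]
        rfl)
  refine ⟨b, b.2, fun j => ?_, fun i => ?_⟩
  · obtain ⟨n, hn⟩ := hb j
    refine ⟨n, ?_⟩
    rw [← coe_pow_torEnd, show (torEnd m (sY j) ^ n) b = 0 from hn]
    rfl
  · exact congrArg Subtype.val (congrFun hgb i)

end Ambient

end Fermat.Agent.ML.Weil
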